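import Fermat.Agent.S37.BR.Kum
import Fermat.Agent.S17.WMW.Open

set_option autoImplicit false
set_option linter.unusedSectionVars false

/-!
# S37 / BR / Fin : `J₀(N)[m]` is finite  (`m ≠ 0`)
-/

noncomputable section

namespace Fermat.Agent.S37.BR

open AlgebraicCurve ModularCurve
open Fermat.Agent.S24 (Kb FN)
open Fermat.Agent.GES (GQ VN DN Vm)

/-- **(b)**. -/
theorem finite_tors (N m : ℕ) [NeZero N] [NeZero m] : {x : JZero N | m • x = 0}.Finite := by
  have := S17.WMW.finite_VN N m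
  rw [← Set.finite_coe_iff]
  choose f hf using fun x : {x : JZero N | m • x = 0} => exists_isKum (N := N) (m := m) x.2
  refine Finite.of_injective (fun x => Vm.mk (⟨f x, (hf x).mem⟩ : DN N m)) ?_
  intro x y hxy
  have h1 := (hf x).div (hf y)
  apply Subtype.ext
  rw [← sub_eq_zero]
  refine h1.eq_zero (NeZero.ne m) ?_
  have h2 : Vm.mk (⟨f x, (hf x).mem⟩ : DN N m) = Vm.mk (⟨f y, (hf y).mem⟩ : DN N m) := hxy
  rw [← sub_eq_zero, ← Vm.mk_div] at h2
  exact h2

end Fermat.Agent.S37.BR
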