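import Fermat.Agent.S37.BR.Kum

set_option autoImplicit false
set_option linter.unusedSectionVars false

/-!
# S37 / BR / Main : inertia acts trivially on `J₀(N)[m]`, Eichler-Shimura relation on `J₀(N)[m]`  (`ℓ ∤ N m`)
-/

noncomputable section

namespace Fermat.Agent.S37.BR

open AlgebraicCurve ModularCurve
open Fermat.Agent.S24 (Kb FN)
open Fermat.Agent.GES (GQ VN DN galF galU rhoV TV heckeU heckeF Vm galU_mem heckeU_mem)

variable (N m ℓ : ℕ) [NeZero N] [NeZero m] (hℓ : ℓ.Prime) (hℓNm : ¬ ℓ ∣ N * m)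
  (A : ValuationSubring Kb) (hA : A.LiesOverPrime ℓ)

include hℓ hℓNm hA

/-- **(d)**: inertia at `ℓ ∤ N m` acts trivially on `J₀(N)[m]`. -/
theorem unram_tors (τ : GQ) (hτ : τ ∈ A.inertiaSubgroupIn ℚ) (x : JZero N) (hx : m • x = 0) :
    τ • x = x := by
  obtain ⟨f, hf⟩ := exists_isKum hx
  have h1 := (hf.gal τ).div hf
  rw [← sub_eq_zero]
  refine h1.eq_zero (NeZero.ne m) ?_
  have h2 := GES.unram N m ℓ hℓ hℓNm A hA τ hτ
  have h3 := congrArg (fun φ => φ (Vm.mk (⟨f, hf.mem⟩ : DN N m))) h2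
  simp only [GES.rhoV_mk, Module.End.one_apply] at h3
  rw [← sub_eq_zero, ← Vm.mk_div] at h3
  exact h3

/-- **(e)**: the Eichler-Shimura relation on `J₀(N)[m]`, `ℓ ∤ N m`. -/
theorem frob_quad (σ : GQ) (hσ : A.IsFrobeniusAt σ ℓ) (x : JZero N) (hx : m • x = 0) :
    σ • σ • x - heckeOperatorBar N ⟨ℓ, hℓ⟩ (σ • x) + ℓ • x = 0 := by
  have : NeZero ℓ := ⟨hℓ.ne_zero⟩
  obtain ⟨f, hf⟩ := exists_isKum hx
  have h1 := (((hf.gal σ).gal σ).div ((hf.gal σ).hecke ℓ)).mul (hf.pow ℓ)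
  have h0 : heckeOperatorBar N ⟨ℓ, hℓ⟩ (σ • x) = heckeOperatorAlong Kb N ℓ (σ • x) := rfl
  rw [h0]
  refine h1.eq_zero (NeZero.ne m) ?_
  have h2 := GES.es_relation N m ℓ hℓ hℓNm A hA σ hσ
  have h3 := congrArg (fun φ => φ (Vm.mk (⟨f, hf.mem⟩ : DN N m))) h2
  simp only [LinearMap.add_apply, LinearMap.sub_apply, Module.End.mul_apply, GES.rhoV_mk,
    GES.TV_mk, LinearMap.smul_apply, Module.End.one_apply, LinearMap.zero_apply] at h3
  have h4 : ((ℓ : ZMod m)) • Vm.mk (⟨f, hf.mem⟩ : DN N m) =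
      Vm.mk ((⟨f, hf.mem⟩ : DN N m) ^ ℓ) := by
    rw [Vm.mk_pow, Nat.cast_smul_eq_nsmul]
  rw [h4, ← Vm.mk_div, ← Vm.mk_mul] at h3
  exact h3

end Fermat.Agent.S37.BR
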