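import Fermat.Agent.S37.HI.Main
import Fermat.Agent.GES.Main

set_option autoImplicit false
set_option linter.unusedSectionVars false

/-!
# S37 / BR / Kum : the bridge `J₀(N)[m] ~ V_m(N)` as a relation

`IsKum m x f` : `x = [D]`, `div f = m D`.  Compatible with sums, Galois and the Hecke correspondence; `x = 0` iff `f` is an `m`-th power.
-/

noncomputable section

namespace Fermat.Agent.S37.BR

open AlgebraicCurve ModularCurve
open Fermat.Agent.S24 (Kb FN)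
open Fermat.Agent.GES (GQ VN DN galF galU rhoV TV heckeU heckeF Vm galU_mem heckeU_mem)

/-- the semilinear automorphism of `F_N` attached to `τ`. -/
abbrev aG (N : ℕ) (τ : GQ) : SemilinearAut Kb (FN N) :=
  arithmeticGalois (modularFunctionFieldFull N) τ

/-- `x = [D]` with `div f = m D`. -/
def IsKum {N : ℕ} (m : ℕ) (x : JZero N) (f : (FN N)ˣ) : Prop :=
  ∃ D : Divisor.degZero (K := Kb) (F := FN N), Pic0.mk D = x ∧
    ∀ v : Place Kb (FN N), v.ord (f : FN N) = m * (D : Divisor Kb (FN N)) v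

theorem mk_eq_zero {N : ℕ} (D : Divisor.degZero (K := Kb) (F := FN N)) (f : FN N) (hf : f ≠ 0)
    (h : ∀ v : Place Kb (FN N), (D : Divisor Kb (FN N)) v = v.ord f) : Pic0.mk D = 0 := by
  unfold Pic0.mk
  rw [QuotientAddGroup.eq_zero_iff, AddSubgroup.mem_addSubgroupOf]
  exact ⟨f, hf, h⟩

theorem exists_of_mk_eq_zero {N : ℕ} (D : Divisor.degZero (K := Kb) (F := FN N))
    (h : Pic0.mk D = 0) : ∃ f : FN N, f ≠ 0 ∧
      ∀ v : Place Kb (FN N), (D : Divisor Kb (FN N)) v = v.ord f := by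
  unfold Pic0.mk at h
  rw [QuotientAddGroup.eq_zero_iff, AddSubgroup.mem_addSubgroupOf] at h
  exact h

variable {N m : ℕ} {x y : JZero N} {f g : (FN N)ˣ}

theorem IsKum.mem (h : IsKum m x f) : f ∈ DN N m := by
  obtain ⟨D, -, hD⟩ := h
  intro v
  rw [hD v]
  exact dvd_mul_right _ _

theorem exists_isKum (hx : m • x = 0) : ∃ f : (FN N)ˣ, IsKum m x f := by
  obtain ⟨D, rfl⟩ := Pic0.mk_surjective x
  have h1 : Pic0.mk (m • D) = 0 := hx
  obtain ⟨f, hf, h⟩ := exists_of_mk_eq_zero _ h1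
  refine ⟨Units.mk0 f hf, D, rfl, fun v => ?_⟩
  rw [Units.val_mk0, ← h v]
  show ((m • (D : Divisor Kb (FN N))) : Divisor Kb (FN N)) v = _
  simp

theorem IsKum.eq_zero (hm : m ≠ 0) (h : IsKum m x f) (hf : Vm.mk (⟨f, h.mem⟩ : DN N m) = 0) :
    x = 0 := by
  obtain ⟨w, hw⟩ := (Vm.mk_eq_zero_iff _).1 hf
  have hw' : w ^ m = f := hw
  obtain ⟨D, rfl, hD⟩ := h
  refine mk_eq_zero D (w : FN N) w.ne_zero fun v => ?_
  have h1 := hD v
  rw [← hw', Units.val_pow_eq_pow_val, Fermat.Agent.S24.ord_pow] at h1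
  have hm' : (m : ℤ) ≠ 0 := by exact_mod_cast hm
  exact (mul_left_cancel₀ hm' h1).symm

theorem IsKum.mul (h : IsKum m x f) (h' : IsKum m y g) : IsKum m (x + y) (f * g) := by
  obtain ⟨D, rfl, hD⟩ := h
  obtain ⟨E, rfl, hE⟩ := h'
  refine ⟨D + E, rfl, fun v => ?_⟩
  rw [Units.val_mul, Place.ord_mul v f.ne_zero g.ne_zero, hD v, hE v]
  show _ = m * ((D : Divisor Kb (FN N)) + (E : Divisor Kb (FN N))) v
  rw [Finsupp.add_apply]
  ring

theorem IsKum.inv (h : IsKum m x f) : IsKum m (-x) f⁻¹ := by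
  obtain ⟨D, rfl, hD⟩ := h
  refine ⟨-D, rfl, fun v => ?_⟩
  rw [Units.val_inv_eq_inv_val, Place.ord_inv, hD v]
  show _ = m * (-(D : Divisor Kb (FN N))) v
  rw [Finsupp.neg_apply]
  ring

theorem IsKum.div (h : IsKum m x f) (h' : IsKum m y g) : IsKum m (x - y) (f / g) := by
  rw [sub_eq_add_neg, div_eq_mul_inv]
  exact h.mul h'.inv

theorem IsKum.one : IsKum m (0 : JZero N) 1 :=
  ⟨0, rfl, fun v => by simp⟩

theorem IsKum.pow (h : IsKum m x f) (n : ℕ) : IsKum m (n • x) (f ^ n) := by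
  induction n with
  | zero => rw [zero_nsmul, pow_zero]; exact IsKum.one
  | succ n ih => rw [succ_nsmul, pow_succ]; exact ih.mul h

theorem ord_galU (N : ℕ) (τ : GQ) (f : (FN N)ˣ) (v : Place Kb (FN N)) :
    v.ord ((galU N τ f : (FN N)ˣ) : FN N) = ((aG N τ)⁻¹ • v).ord (f : FN N) := by
  have h := SemilinearAut.ord_smul (aG N τ) ((aG N τ)⁻¹ • v) (f : FN N)
  rw [smul_inv_smul] at h
  exact h

theorem IsKum.gal (h : IsKum m x f) (σ : GQ) : IsKum m (σ • x) (galU N σ f) := by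
  obtain ⟨D, rfl, hD⟩ := h
  refine ⟨SemilinearAut.degZeroSMulHom (aG N σ) D, ?_, fun v => ?_⟩
  · rw [galois_smul_pic0_def, SemilinearAut.pic0_smul_mk]
  · rw [ord_galU, hD, SemilinearAut.coe_degZeroSMulHom, SemilinearAut.divisor_smul_apply]

theorem IsKum.hecke [NeZero N] (h : IsKum m x f) (ℓ : ℕ) [NeZero ℓ] :
    IsKum m (heckeOperatorAlong Kb N ℓ x) (heckeU N ℓ f) := by
  obtain ⟨D, rfl, hD⟩ := h
  rw [HI.heckeOperatorAlong_eq']
  have hα : (heckeAlphaBar Kb N ℓ).toRingHom.IsIntegral := GES.isIntegral_alpha N ℓ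
  have hβ : (heckeBetaBar Kb N ℓ).toRingHom.IsIntegral := GES.isIntegral_beta N ℓ
  refine ⟨Pic0.degZeroCorrespondence (heckeBetaBar Kb N ℓ) (heckeAlphaBar Kb N ℓ)
    hβ hα (HI.fi_beta N ℓ) D, rfl, fun v => ?_⟩
  rw [Pic0.coe_degZeroCorrespondence, Divisor.correspondence_apply]
  set E := Divisor.pullbackAlong (heckeBetaBar Kb N ℓ) hβ (D : Divisor Kb (FN N)) with hE
  have hg : heckeBetaBar Kb N ℓ (f : FN N) ≠ 0 := (map_ne_zero _).mpr f.ne_zero
  have h1 : ∀ w : Place Kb (FN (N * ℓ)), (m • E) w = w.ord (heckeBetaBar Kb N ℓ (f : FN N)) := by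
    intro w
    rw [Place.ord_restrictAlong (heckeBetaBar Kb N ℓ) hβ w, hD,
      Finsupp.smul_apply, hE, Divisor.pullbackAlong_apply]
    simp only [nsmul_eq_mul]
    ring
  have h2 := HI.nf_alpha N ℓ (heckeBetaBar Kb N ℓ (f : FN N)) hg (m • E) h1 v
  have h3 : Divisor.pushforwardAlong (heckeAlphaBar Kb N ℓ) hα (m • E) v =
      v.ord ((heckeU N ℓ f : (FN N)ˣ) : FN N) := h2
  rw [← h3, map_nsmul, Finsupp.smul_apply]
  simp only [nsmul_eq_mul]

end Fermat.Agent.S37.BR
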